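import Fermat.Agent.Root.SummaryAverageLangTrotter
import Fermat.Agent.Forms3.ThreeSquaresGrowth
import Fermat.Agent.Tau.SiegelDiscriminant
import Mathlib.NumberTheory.LSeries.PrimesInAP

/-!
# Every trace at many primes on almost all curves

By Siegel `H(4 p - t²) ≥ c p^(1/4)`, so the share of the residues of trace `t` mod `p` is at least
`c p^(-3/4)`, whose sum over the primes of an invertible class diverges (Dirichlet). The sieve then
gives almost every pair any number of primes with `a_p = t` in the class.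
-/

set_option autoImplicit false
set_option linter.style.haveILetI false

noncomputable section

open Filter Topology WeierstrassCurve WeierstrassCurve.Affine

namespace FA.AlmostAll

/-- The Hurwitz class number is at least a third of the class number. -/
theorem ncard_red_le_classNumberH (N : ℕ) :
    ((FA.Singular.Red (-(N : ℤ))).ncard : ℝ) / 3 ≤ (FA.ClassRelation.classNumberH N : ℝ) := by
  have hsub : FA.Singular.Red (-(N : ℤ)) ⊆ (FA.ClassRelation.redForms N : Set (ℤ × ℤ × ℤ)) :=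
    fun f hf => by
      obtain ⟨h1, -, h2⟩ := hf
      exact Finset.mem_coe.mpr (FA.ClassRelation.mem_redForms.mpr ⟨h1, h2⟩)
  have h := Set.ncard_le_ncard hsub (Finset.finite_toSet _)
  rw [Set.ncard_coe_finset] at h
  refine le_trans (div_le_div_of_nonneg_right (Nat.cast_le.mpr h) (by norm_num)) ?_
  rw [FA.ClassRelation.classNumberH, Rat.cast_sum, div_eq_mul_one_div, ← nsmul_eq_mul]
  refine Finset.card_nsmul_le_sum _ _ _ fun f _ => ?_
  have := (Rat.cast_le (K := ℝ)).2 (FA.HurwitzQ.weight_bounds f).1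
  simpa using this

/-- **The share of a trace is at least `c p^(-3/4)`** (Siegel; ineffective). -/
theorem exists_share_lower (t : ℤ) :
    ∃ c : ℝ, 0 < c ∧ ∀ p : ℕ, p.Prime → 5 ≤ p → t ^ 2 ≤ (p : ℤ) →
      c * (p : ℝ) ^ (-(3 / 4) : ℝ) * (p : ℝ) ^ 2 ≤ ((traceClasses p t).ncard : ℝ) := by
  obtain ⟨C, hC, h⟩ := FA.SiegelDiscriminant.ncard_red_lower_bound (1 / 4) (by norm_num)
  refine ⟨C / 12, by positivity, fun p hp h5 ht => ?_⟩
  have h5' : (5 : ℤ) ≤ p := by exact_mod_cast h5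
  have ht4 : t ^ 2 < 4 * (p : ℤ) := by omega
  set N := (4 * (p : ℤ) - t ^ 2).toNat with hN
  have hNe : (N : ℤ) = 4 * (p : ℤ) - t ^ 2 := Int.toNat_of_nonneg (by omega)
  have hmod : (-(N : ℤ)) % 4 = 0 ∨ (-(N : ℤ)) % 4 = 1 := by
    rw [hNe, show -(4 * (p : ℤ) - t ^ 2) = t ^ 2 - 4 * 1 * p by ring]
    exact FA.SiegelDiscriminant.disc_mod_four 1 t p
  have hl := h (-(N : ℤ)) (by omega) hmod
  rw [show |(((-(N : ℤ)) : ℤ) : ℝ)| = (N : ℝ) by simp,
    show (1 / 2 - 1 / 4 : ℝ) = 1 / 4 by norm_num] at hl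
  have hp0 : (0 : ℝ) < p := Nat.cast_pos.mpr hp.pos
  have hpN : (p : ℝ) ≤ N := by exact_mod_cast (show (p : ℤ) ≤ (N : ℤ) by omega)
  have hmono : C * (p : ℝ) ^ (1 / 4 : ℝ) ≤ ((FA.Singular.Red (-(N : ℤ))).ncard : ℝ) :=
    le_trans (mul_le_mul_of_nonneg_left (Real.rpow_le_rpow hp0.le hpN (by norm_num)) hC.le) hl
  have hH := ncard_red_le_classNumberH N
  have hs := traceClasses_share hp h5 ht4
  rw [← hN, div_eq_iff (by positivity)] at hs
  have he : (p : ℝ) ^ (-(3 / 4) : ℝ) * (p : ℝ) ^ 2 = (p : ℝ) * (p : ℝ) ^ (1 / 4 : ℝ) := by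
    rw [← Real.rpow_natCast (p : ℝ) 2, ← Real.rpow_add hp0, ← Real.rpow_one_add' hp0.le
      (by norm_num)]
    norm_num
  rw [hs, mul_assoc, he]
  have hp5 : (5 : ℝ) ≤ p := by exact_mod_cast h5
  set H := (FA.ClassRelation.classNumberH N : ℝ)
  set u := (p : ℝ) ^ (1 / 4 : ℝ)
  have hu : 0 ≤ u := Real.rpow_nonneg hp0.le _
  rw [show ((p : ℝ) - 1) * H / (2 * (p : ℝ) ^ 2) * (p : ℝ) ^ 2 = ((p : ℝ) - 1) * H / 2 by
    field_simp]
  have hH' : C * u / 3 ≤ H := by linarith
  nlinarith [mul_le_mul_of_nonneg_left hH' hp0.le, mul_le_mul_of_nonneg_right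
    (show (p : ℝ) / 2 ≤ (p : ℝ) - 1 by linarith) (le_trans (by positivity) hH' : (0 : ℝ) ≤ H)]

/-- The residues with trace `t`, as a finite set. -/
def traceFinset (t : ℤ) (p : ℕ) : Finset (ZMod p × ZMod p) :=
  if h : p = 0 then ∅ else
    haveI : NeZero p := ⟨h⟩
    (Set.toFinite (traceClasses p t)).toFinset

theorem mem_traceFinset {t : ℤ} {p : ℕ} (hp : p.Prime) {ab : ZMod p × ZMod p} :
    ab ∈ traceFinset t p ↔ ab ∈ traceClasses p t := by
  rw [traceFinset, dif_neg hp.ne_zero, Set.Finite.mem_toFinset]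

theorem card_traceFinset {t : ℤ} {p : ℕ} (hp : p.Prime) :
    (traceFinset t p).card = (traceClasses p t).ncard := by
  rw [← Set.ncard_coe_finset]
  exact congrArg Set.ncard (Set.ext fun _ => mem_traceFinset hp)

/-- `∑ p^(-3/4)` over the primes of an invertible class diverges. -/
theorem not_summable_rpow_class {M : ℕ} [NeZero M] (a : (ZMod M)ˣ) {c : ℝ} (hc : 0 < c) (B : ℕ) :
    ¬ Summable ({p : ℕ | p.Prime ∧ (p : ZMod M) = a ∧ B ≤ p}.indicator
      fun n : ℕ => c * (n : ℝ) ^ (-(3 / 4) : ℝ)) := fun h => by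
  refine ArithmeticFunction.vonMangoldt.not_summable_residueClass_prime_div a.isUnit
    ((h.mul_left (4 / c)).of_norm_bounded_eventually_nat (eventually_atTop.mpr ⟨B + 1, fun n hn =>
      ?_⟩))
  by_cases hp : n.Prime ∧ (n : ZMod M) = a
  · have hn0 : (0 : ℝ) < n := Nat.cast_pos.mpr hp.1.pos
    rw [if_pos hp.1, Set.indicator_of_mem (show n ∈ {p : ℕ | p.Prime ∧ (p : ZMod M) = a ∧ B ≤ p}
      from ⟨hp.1, hp.2, by omega⟩), ArithmeticFunction.vonMangoldt.residueClass,
      Set.indicator_of_mem (show n ∈ {n : ℕ | (n : ZMod M) = a} from hp.2),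
      ArithmeticFunction.vonMangoldt_apply_prime hp.1, Real.norm_of_nonneg (div_nonneg
        (Real.log_natCast_nonneg n) hn0.le), ← mul_assoc, div_mul_cancel₀ _ hc.ne',
      div_le_iff₀ hn0, mul_assoc, ← Real.rpow_add_one hn0.ne']
    refine (Real.log_le_rpow_div hn0.le (show (0 : ℝ) < 1 / 4 by norm_num)).trans (le_of_eq ?_)
    norm_num
    ring
  · have hz : (if n.Prime then ArithmeticFunction.vonMangoldt.residueClass (a : ZMod M) n
        else 0) = 0 := by
      split_ifs with h1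
      · rw [ArithmeticFunction.vonMangoldt.residueClass,
          Set.indicator_of_notMem (show n ∉ {n : ℕ | (n : ZMod M) = a} from fun h2 => hp ⟨h1, h2⟩)]
      · rfl
    rw [hz, zero_div, norm_zero, Set.indicator_of_notMem (fun hm => hp ⟨hm.1, hm.2.1⟩), mul_zero]

/-- At least `k` primes `5 ≤ p ≤ x` outside `F` in the class `a`, with `a_p = t`. -/
def HasTraces (t : ℤ) {M : ℕ} (a : ZMod M) (F : Finset ℕ) (x k : ℕ) (AB : ℤ × ℤ) : Prop :=
  ∃ T : Finset ℕ, T.card = k ∧ ∀ p ∈ T, p.Prime ∧ 5 ≤ p ∧ p ≤ x ∧ (p : ZMod M) = a ∧ p ∉ F ∧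
    (⟨0, 0, 0, AB.1, AB.2⟩ : WeierstrassCurve ℤ).IsGoodPrimeFor p ∧
    (⟨0, 0, 0, AB.1, AB.2⟩ : WeierstrassCurve ℤ).apOfModel p = t

open Classical in
/-- **All but a proportion `ε` have `k` such primes below a bound.** -/
theorem exists_bound_hasTraces (t : ℤ) {M : ℕ} [NeZero M] (a : (ZMod M)ˣ) (k : ℕ) :
    ∀ (F : Finset ℕ) (ε : ℝ), 0 < ε → ∃ x : ℕ, ∀ᶠ XY : ℕ × ℕ in atTop,
      (((box XY.1 XY.2).filter fun AB => ¬ HasTraces t (a : ZMod M) F x k AB).card : ℝ) /
        ((2 * XY.1 + 1) * (2 * XY.2 + 1)) < ε := by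
  induction k with
  | zero =>
    intro F ε hε
    refine ⟨0, Eventually.of_forall fun XY => ?_⟩
    rw [Finset.filter_eq_empty_iff.mpr fun AB _ h => h ⟨∅, rfl, by simp⟩, Finset.card_empty,
      Nat.cast_zero, zero_div]
    exact hε
  | succ k ih =>
    intro F ε hε
    obtain ⟨c, hc, hshare⟩ := exists_share_lower t
    set B := (t ^ 2).toNat + F.sup id + 5 with hB
    set Q := {p : ℕ | p.Prime ∧ (p : ZMod M) = a ∧ B ≤ p}
    obtain ⟨S, hS, havoid⟩ := exists_avoid_finset (Q := Q) (m := fun p => p)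
      (fun i hi j hj hij => (Nat.coprime_primes hi.1 hj.1).mpr hij)
      (fun p hp => hp.1.pos) (w := fun n : ℕ => c * (n : ℝ) ^ (-(3 / 4) : ℝ))
      (fun n => mul_nonneg hc.le (Real.rpow_nonneg (Nat.cast_nonneg n) _))
      (not_summable_rpow_class a hc B) (traceFinset t) (fun p hp => by
        rw [card_traceFinset hp.1]
        refine hshare p hp.1 ?_ ?_
        · have := hp.2.2; omega
        · have := hp.2.2
          have := Int.self_le_toNat (t ^ 2)
          omega) (show 0 < ε / 2 by positivity)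
    obtain ⟨x, hx⟩ := ih (F ∪ S) (ε / 2) (by positivity)
    refine ⟨max x (S.sup id), ?_⟩
    filter_upwards [hx, eventually_ge_atTop (∏ p ∈ S, p, ∏ p ∈ S, p)] with XY h1 hXY
    have h2 := havoid (fun AB => ∀ p ∈ S, ((AB.1 : ZMod p), (AB.2 : ZMod p)) ∉ traceFinset t p)
      (fun _ h => h) XY.1 XY.2 hXY.1 hXY.2
    refine lt_of_le_of_lt (div_le_div_of_nonneg_right (Nat.cast_le.mpr
      ((Finset.card_le_card (t := ((box XY.1 XY.2).filter fun AB : ℤ × ℤ =>
          ∀ p ∈ S, ((AB.1 : ZMod p), (AB.2 : ZMod p)) ∉ traceFinset t p) ∪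
        (box XY.1 XY.2).filter fun AB => ¬ HasTraces t (a : ZMod M) (F ∪ S) x k AB)
        fun AB hAB => ?_).trans (Finset.card_union_le _ _))) (by positivity))
      (by rw [Nat.cast_add, add_div]; linarith)
    obtain ⟨hb, hno⟩ := Finset.mem_filter.mp hAB
    rw [Finset.mem_union, Finset.mem_filter, Finset.mem_filter]
    by_cases hT : HasTraces t (a : ZMod M) (F ∪ S) x k AB
    swap
    · exact Or.inr ⟨hb, hT⟩
    refine Or.inl ⟨hb, fun p hp hmem => hno ?_⟩
    obtain ⟨T, hcard, hT⟩ := hT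
    have hpT : p ∉ T := fun h => (hT p h).2.2.2.2.1 (Finset.mem_union_right _ hp)
    obtain ⟨hpr, hpa, hpB⟩ := hS p hp
    rw [mem_traceFinset hpr] at hmem
    obtain ⟨hg, hap⟩ := (mem_traceClasses_iff hpr (by omega) t AB).mp hmem
    refine ⟨insert p T, by rw [Finset.card_insert_of_notMem hpT, hcard], fun r hr => ?_⟩
    rcases Finset.mem_insert.mp hr with rfl | hr
    · refine ⟨hpr, by omega, le_max_of_le_right (Finset.le_sup (f := id) hp), hpa, fun hF => ?_,
        hg, hap⟩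
      have := Finset.le_sup (f := id) hF
      simp only [id_eq] at this
      omega
    · obtain ⟨h1, h2, h3, h4, h5, h6⟩ := hT r hr
      exact ⟨h1, h2, le_max_of_le_left h3, h4, fun hF => h5 (Finset.mem_union_left _ hF), h6⟩

open Classical in
/-- **Almost every pair has `k` primes in the class with `a_p = t`, for all `t` in a finite
set.** -/
theorem tendsto_hasTraces (S : Finset ℤ) {M : ℕ} [NeZero M] (a : (ZMod M)ˣ) (k : ℕ) :
    Tendsto (fun XY : ℕ × ℕ => (((box XY.1 XY.2).filter fun AB =>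
        ∀ t ∈ S, ∃ x, HasTraces t (a : ZMod M) ∅ x k AB).card : ℝ) /
      ((2 * XY.1 + 1) * (2 * XY.2 + 1))) atTop (𝓝 1) := by
  have hbad : Tendsto (fun XY : ℕ × ℕ => (((box XY.1 XY.2).filter fun AB =>
      ∃ t : S, ¬ ∃ x, HasTraces t (a : ZMod M) ∅ x k AB).card : ℝ) /
        ((2 * XY.1 + 1) * (2 * XY.2 + 1))) atTop (𝓝 0) := by
    refine tendsto_exists fun t => Metric.tendsto_nhds.mpr fun ε hε => ?_
    obtain ⟨x, hx⟩ := exists_bound_hasTraces t a k ∅ ε hε
    filter_upwards [hx] with XY hXY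
    rw [Real.dist_eq, sub_zero, abs_of_nonneg (by positivity)]
    refine lt_of_le_of_lt (div_le_div_of_nonneg_right (Nat.cast_le.mpr (Finset.card_le_card
      fun AB hAB => ?_)) (by positivity)) hXY
    rw [Finset.mem_filter] at hAB ⊢
    exact ⟨hAB.1, fun hh => hAB.2 ⟨x, hh⟩⟩
  have h1 := (tendsto_const_nhds (x := (1 : ℝ))).sub hbad
  rw [sub_zero] at h1
  refine h1.congr fun XY => ?_
  have hb : ((box XY.1 XY.2).card : ℝ) = (2 * (XY.1 : ℝ) + 1) * (2 * (XY.2 : ℝ) + 1) := by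
    rw [box, Finset.card_product, Int.card_Icc, Int.card_Icc,
      show ((XY.1 : ℤ) + 1 - -(XY.1 : ℤ)).toNat = 2 * XY.1 + 1 by omega,
      show ((XY.2 : ℤ) + 1 - -(XY.2 : ℤ)).toNat = 2 * XY.2 + 1 by omega]
    push_cast
    ring
  have h0 : (2 * (XY.1 : ℝ) + 1) * (2 * (XY.2 : ℝ) + 1) ≠ 0 := by positivity
  rw [one_sub_div h0, ← hb, ← Finset.card_filter_add_card_filter_not
    (s := box XY.1 XY.2) (fun AB => ∀ t ∈ S, ∃ x, HasTraces t (a : ZMod M) ∅ x k AB)]
  push_cast
  congr 1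
  rw [add_sub_assoc, add_eq_left, sub_eq_zero, Nat.cast_inj]
  refine congrArg Finset.card (Finset.filter_congr fun AB _ => ?_)
  simp only [Subtype.exists, exists_prop, not_forall]

end FA.AlmostAll

end
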