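import Fermat.Agent.OpenImageAll.AlmostAll
import Mathlib.Data.Int.CardIntervalMod
import Mathlib.Data.ZMod.QuotientRing

/-!
# Residues of the pairs in a box are equidistributed

An interval of length `n` meets each class mod `M` in `n / M` integers up to one. So the pairs in
boxes with residues mod `M` in a given set have density the share of that set, and by the Chinese
remainder theorem conditions at finitely many primes are independent. Few pairs are singular.
-/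

set_option autoImplicit false
set_option linter.style.haveILetI false

noncomputable section

open Filter Topology Finset

namespace FA.AlmostAll

/-- The integers of `[-X, X]` in one class. -/
def classCount (M : ℕ) (c : ZMod M) (X : ℕ) : ℕ :=
  ((Icc (-(X : ℤ)) X).filter fun n : ℤ => (n : ZMod M) = c).card

/-- An interval meets a class in its share up to one. -/
theorem abs_classCount_sub_le (M : ℕ) [NeZero M] (c : ZMod M) (X : ℕ) :
    |(classCount M c X : ℝ) - (2 * X + 1) / M| ≤ 1 := by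
  have hM : (0 : ℤ) < M := Int.natCast_pos.mpr (NeZero.pos M)
  have hset : (Icc (-(X : ℤ)) X).filter (fun n : ℤ => (n : ZMod M) = c) =
      (Ico (-(X : ℤ)) (X + 1)).filter (fun n : ℤ => n ≡ (c.val : ℤ) [ZMOD (M : ℤ)]) := by
    ext n
    simp only [mem_filter, mem_Icc, mem_Ico, Int.lt_add_one_iff, ← ZMod.intCast_eq_intCast_iff,
      Int.cast_natCast, ZMod.natCast_zmod_val]
  have h := Int.Ico_filter_modEq_card (-(X : ℤ)) (X + 1) hM (c.val : ℤ)
  rw [← hset] at h
  have hMq : (0 : ℚ) < ((M : ℤ) : ℚ) := Int.cast_pos.mpr hM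
  set u : ℚ := (((X + 1 : ℤ) : ℚ) - ((c.val : ℤ) : ℚ)) / ((M : ℤ) : ℚ) with hu
  set w : ℚ := (((-(X : ℤ)) : ℤ) : ℚ) - ((c.val : ℤ) : ℚ) with hw
  set v : ℚ := w / ((M : ℤ) : ℚ) with hv
  have huv : u - v = (2 * (X : ℚ) + 1) / M := by
    rw [hu, hv, hw, div_sub_div_same]; push_cast; ring
  have hpos : 0 ≤ u - v := by rw [huv]; positivity
  have hle : ⌈v⌉ ≤ ⌈u⌉ := Int.ceil_le_ceil (by linarith)
  rw [max_eq_left (by linarith)] at h
  have key : |((classCount M c X : ℕ) : ℚ) - (2 * X + 1) / M| ≤ 1 := by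
    have e : ((classCount M c X : ℕ) : ℚ) = (⌈u⌉ : ℚ) - ⌈v⌉ := by
      rw [classCount]; exact_mod_cast h
    rw [e, ← huv, abs_le]
    constructor <;> linarith [Int.le_ceil u, Int.le_ceil v, Int.ceil_lt_add_one u,
      Int.ceil_lt_add_one v]
  have := (Rat.cast_le (K := ℝ)).mpr key
  push_cast at this
  exact this

/-- The share of a class in the intervals tends to `1 / M`. -/
theorem tendsto_classCount (M : ℕ) [NeZero M] (c : ZMod M) :
    Tendsto (fun X : ℕ => (classCount M c X : ℝ) / (2 * X + 1)) atTop (𝓝 (1 / M)) := by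
  rw [← tendsto_sub_nhds_zero_iff]
  refine squeeze_zero_norm (fun X => ?_) (tendsto_one_div_add_atTop_nhds_zero_nat (𝕜 := ℝ))
  have h := abs_classCount_sub_le M c X
  have hX : (0 : ℝ) < 2 * X + 1 := by positivity
  have hM : (M : ℝ) ≠ 0 := Nat.cast_ne_zero.mpr (NeZero.ne M)
  rw [Real.norm_eq_abs, show (classCount M c X : ℝ) / (2 * X + 1) - 1 / M =
    ((classCount M c X : ℝ) - (2 * X + 1) / M) / (2 * X + 1) by field_simp, abs_div,
    abs_of_pos hX]
  exact div_le_div₀ zero_le_one h (by positivity) (by linarith [Nat.cast_nonneg (α := ℝ) X])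

/-- **The pairs with residues in a given set.** -/
theorem tendsto_residues (M : ℕ) [NeZero M] (U : Finset (ZMod M × ZMod M)) :
    Tendsto (fun XY : ℕ × ℕ => (((box XY.1 XY.2).filter fun AB : ℤ × ℤ =>
        ((AB.1 : ZMod M), (AB.2 : ZMod M)) ∈ U).card : ℝ) /
      ((2 * XY.1 + 1) * (2 * XY.2 + 1))) atTop (𝓝 ((U.card : ℝ) / (M : ℝ) ^ 2)) := by
  classical
  have hcount : ∀ X Y : ℕ, (((box X Y).filter fun AB : ℤ × ℤ =>
      ((AB.1 : ZMod M), (AB.2 : ZMod M)) ∈ U).card : ℝ) =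
        ∑ u ∈ U, (classCount M u.1 X : ℝ) * classCount M u.2 Y := fun X Y => by
    rw [Finset.card_eq_sum_card_fiberwise
      (f := fun AB : ℤ × ℤ => ((AB.1 : ZMod M), (AB.2 : ZMod M))) (t := U)
      (s := (box X Y).filter fun AB : ℤ × ℤ => ((AB.1 : ZMod M), (AB.2 : ZMod M)) ∈ U)
      fun AB hAB => mem_coe.mpr (mem_filter.mp (mem_coe.mp hAB)).2, Nat.cast_sum]
    refine sum_congr rfl fun u hu => ?_
    rw [← Nat.cast_mul, classCount, classCount, ← card_product, Finset.filter_filter]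
    refine congrArg (fun s : Finset (ℤ × ℤ) => ((s.card : ℕ) : ℝ)) ?_
    ext AB
    simp only [box, mem_filter, mem_product, Prod.ext_iff]
    constructor
    · rintro ⟨⟨h1, h2⟩, -, e1, e2⟩
      exact ⟨⟨h1, e1⟩, h2, e2⟩
    · rintro ⟨⟨h1, e1⟩, h2, e2⟩
      exact ⟨⟨h1, h2⟩, by rwa [e1, e2], e1, e2⟩
  have hsum : Tendsto (fun XY : ℕ × ℕ => ∑ u ∈ U,
      ((classCount M u.1 XY.1 : ℝ) / (2 * XY.1 + 1)) *
        ((classCount M u.2 XY.2 : ℝ) / (2 * XY.2 + 1))) atTop
      (𝓝 (∑ _u ∈ U, (1 / (M : ℝ)) * (1 / M))) := by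
    refine tendsto_finsetSum _ fun u _ => ?_
    rw [← prod_atTop_atTop_eq]
    exact ((tendsto_classCount M u.1).comp tendsto_fst).mul
      ((tendsto_classCount M u.2).comp tendsto_snd)
  rw [sum_const, nsmul_eq_mul] at hsum
  convert hsum using 1
  · funext XY
    rw [hcount, sum_div]
    exact sum_congr rfl fun u _ => (div_mul_div_comm _ _ _ _).symm
  · congr 1
    ring

/-- **Conditions at finitely many primes are independent.** -/
theorem tendsto_residues_primes (P : Finset ℕ) (hP : ∀ p ∈ P, p.Prime)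
    (T : ∀ p : ℕ, Set (ZMod p × ZMod p))
    [DecidablePred fun AB : ℤ × ℤ => ∀ p ∈ P, ((AB.1 : ZMod p), (AB.2 : ZMod p)) ∈ T p] :
    Tendsto (fun XY : ℕ × ℕ => (((box XY.1 XY.2).filter fun AB : ℤ × ℤ =>
        ∀ p ∈ P, ((AB.1 : ZMod p), (AB.2 : ZMod p)) ∈ T p).card : ℝ) /
      ((2 * XY.1 + 1) * (2 * XY.2 + 1))) atTop
      (𝓝 (∏ p ∈ P, ((T p).ncard : ℝ) / (p : ℝ) ^ 2)) := by
  classical
  have hcop : Pairwise (Function.onFun Nat.Coprime fun l : P => (l : ℕ)) := fun i j hij =>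
    (Nat.coprime_primes (hP i i.2) (hP j j.2)).mpr fun h => hij (Subtype.ext h)
  haveI : ∀ l : P, NeZero (l : ℕ) := fun l => ⟨(hP l l.2).ne_zero⟩
  haveI : NeZero (∏ l : P, (l : ℕ)) :=
    ⟨prod_ne_zero_iff.mpr fun l _ => (hP l l.2).ne_zero⟩
  let e : ZMod (∏ l : P, (l : ℕ)) ≃+* ∀ l : P, ZMod (l : ℕ) := ZMod.prodEquivPi _ hcop
  let f : ZMod (∏ l : P, (l : ℕ)) × ZMod (∏ l : P, (l : ℕ)) ≃
      ∀ l : P, ZMod (l : ℕ) × ZMod (l : ℕ) :=
    (e.toEquiv.prodCongr e.toEquiv).trans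
      { toFun := fun x l => (x.1 l, x.2 l)
        invFun := fun g => (fun l => (g l).1, fun l => (g l).2)
        left_inv := fun _ => rfl
        right_inv := fun _ => rfl }
  let U := (Fintype.piFinset fun l : P => (T (l : ℕ)).toFinset).map f.symm.toEmbedding
  have hU : (U.card : ℝ) = ∏ p ∈ P, ((T p).ncard : ℝ) := by
    rw [card_map, Fintype.card_piFinset, Nat.cast_prod, ← prod_coe_sort P]
    exact prod_congr rfl fun l _ => by rw [Set.ncard_eq_toFinset_card']
  have h := tendsto_residues _ U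
  rw [hU, Nat.cast_prod, ← prod_pow, prod_coe_sort P fun p => (p : ℝ) ^ 2, ← prod_div_distrib] at h
  have hf : ∀ (AB : ℤ × ℤ) (l : P), f ((AB.1 : ZMod _), (AB.2 : ZMod _)) l =
      ((AB.1 : ZMod (l : ℕ)), (AB.2 : ZMod (l : ℕ))) := fun AB l =>
    Prod.ext (congrFun (map_intCast e AB.1) l) (congrFun (map_intCast e AB.2) l)
  refine h.congr fun XY => ?_
  congr 2
  refine Finset.card_bij (fun AB _ => AB) ?_ (fun _ _ _ _ h => h) ?_
  all_goals
    intro AB hAB
    simp only [mem_filter, U, mem_map_equiv, Equiv.symm_symm, Fintype.mem_piFinset,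
      Set.mem_toFinset, hf] at hAB ⊢
  · exact ⟨hAB.1, fun p hp => hAB.2 ⟨p, hp⟩⟩
  · exact ⟨AB, ⟨hAB.1, fun l => hAB.2 l l.2⟩, rfl⟩

/-- The pairs with `4 A³ + 27 B² = 0` are negligible. -/
theorem tendsto_singular :
    Tendsto (fun XY : ℕ × ℕ => (((box XY.1 XY.2).filter fun AB : ℤ × ℤ =>
        4 * AB.1 ^ 3 + 27 * AB.2 ^ 2 = 0).card : ℝ) /
      ((2 * XY.1 + 1) * (2 * XY.2 + 1))) atTop (𝓝 0) := by
  have hlim : Tendsto (fun XY : ℕ × ℕ => 2 * (1 / ((XY.2 : ℝ) + 1))) atTop (𝓝 0) := by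
    rw [← mul_zero (2 : ℝ), ← prod_atTop_atTop_eq]
    exact ((tendsto_one_div_add_atTop_nhds_zero_nat (𝕜 := ℝ)).comp tendsto_snd).const_mul 2
  refine squeeze_zero (fun XY => by positivity) (fun XY => ?_) hlim
  have hle : ((box XY.1 XY.2).filter fun AB : ℤ × ℤ => 4 * AB.1 ^ 3 + 27 * AB.2 ^ 2 = 0).card ≤
      (Icc (-(XY.1 : ℤ)) XY.1 ×ˢ (univ : Finset Bool)).card := by
    refine card_le_card_of_injOn (fun AB : ℤ × ℤ => (AB.1, decide (0 ≤ AB.2))) (fun AB hAB => ?_) ?_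
    · simp only [box, coe_filter, Set.mem_ofPred_eq, mem_product] at hAB
      exact mem_coe.mpr (mem_product.mpr ⟨hAB.1.1, mem_univ _⟩)
    · rintro ⟨A, B⟩ h1 ⟨A', B'⟩ h2 h
      simp only [coe_filter, Set.mem_ofPred_eq] at h1 h2
      simp only [Prod.mk.injEq, decide_eq_decide] at h
      obtain ⟨rfl, hs⟩ := h
      refine Prod.ext rfl ?_
      rcases sq_eq_sq_iff_eq_or_eq_neg.mp
        (show B ^ 2 = B' ^ 2 by linarith [h1.2, h2.2]) with h3 | h3
      · exact h3
      · omega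
  rw [card_product, Int.card_Icc, card_univ, Fintype.card_bool,
    show ((XY.1 : ℤ) + 1 - -(XY.1 : ℤ)).toNat = 2 * XY.1 + 1 by omega] at hle
  have h2 := (Nat.cast_le (α := ℝ)).mpr hle
  push_cast at h2
  rw [div_le_iff₀ (by positivity)]
  refine h2.trans ?_
  have hY : (1 : ℝ) ≤ 1 / ((XY.2 : ℝ) + 1) * (2 * XY.2 + 1) := by
    rw [div_mul_eq_mul_div, one_mul, le_div_iff₀ (by positivity)]
    linarith [Nat.cast_nonneg (α := ℝ) XY.2]
  have := mul_le_mul_of_nonneg_left hY (show (0 : ℝ) ≤ (2 * XY.1 + 1) * 2 by positivity)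
  linarith

end FA.AlmostAll

end
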